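import Fermat.Agent.S48.T18.Interface

/-! # T18 task ToFN -/

set_option autoImplicit false

noncomputable section

namespace Fermat.Agent.T24.T18

open Fermat.Agent.S18 Fermat.Agent.S24

open Polynomial IntermediateField ModularCurve AlgebraicCurve

theorem coeffMap_coeffEmb' {K : Type} [Field K] [Algebra ℚ K] (ι : K →+* Kb) (f : LaurentSeries ℚ) :
    coeffMap ι (coeffEmb K f) = coeffEmb Kb f := by
  rw [coeffEmb, coeffEmb, coeffMap_coeffMap]
  exact coeffMap_congr (RingHom.ext_rat _ _) _

theorem coeffMap_TserC {K : Type} [Field K] [Algebra ℚ K] (ι : K →+* Kb) (D e : ℕ) [NeZero e] (b : ZMod D) :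
    coeffMap ι (TserC K D e b) = Tser D e b := by
  rw [TserC, coeffMap_qExpand, coeffMap_coeffEmb', Tser, dif_neg (NeZero.ne e), coeffEmb,
    coeffMap_qExpand]

/-- task ToFN. `F_K → F_ℚ̄` on coefficients. -/
theorem coeffMap_mem_FN {K : Type} [Field K] [Algebra ℚ K] (ι : K →+* Kb) (N : ℕ) [NeZero N] [Cond N]
    (f : modularFunctionFieldFullC K N) : coeffMap ι f.1 ∈ modularFunctionFieldBar N := by
  obtain ⟨f, hf⟩ := f
  show coeffMap ι f ∈ modularFunctionFieldBar N
  change f ∈ IntermediateField.adjoin K (divisorExpansionsC K N) at hf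
  induction hf using IntermediateField.adjoin_induction with
  | mem x hx =>
    rcases hx with ⟨d, hd0, hd, rfl⟩ | ⟨e, he0, b, he, rfl⟩
    · have : coeffMap ι (qExpand K d (jqModC K)) = Fermat.Agent.S24.Jser d := by
        rw [Fermat.Agent.S24.phi_Jser_of_ne, jqNModC, coeffMap_qExpand, coeffMap_jqModC]
      rw [this]
      exact A0_le N _ (Jser_mem_A0 hd)
    · rw [coeffMap_TserC]
      exact A0_le N _ (Tser_mem_A0 he b)
  | algebraMap r =>
    rw [algebraMap_laurentSeries_eq_single, coeffMap_single, ← algebraMap_laurentSeries_eq_single]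
    exact (modularFunctionFieldBar N).algebraMap_mem _
  | add x y _ _ hx hy =>
    rw [map_add]; exact add_mem hx hy
  | inv x _ hx =>
    rw [map_inv₀]; exact InvMemClass.inv_mem hx
  | mul x y _ _ hx hy =>
    rw [map_mul]; exact mul_mem hx hy

end Fermat.Agent.T24.T18
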