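import Fermat.Agent.S18.Descent
import Fermat.Agent.S48.T18.Ctx

set_option autoImplicit false

/-! # T18 (twin of S18) chapter D: descent of a `p`-th root from `E₀ = F_K(x)` to `F_K` -/

noncomputable section

namespace Fermat.Agent.T24.T18

open Fermat.Agent.S18 Fermat.Agent.S24

open Polynomial IntermediateField ModularCurve AlgebraicCurve

namespace Desc


theorem natDegree_minpoly_mem {M L : Type*} [Field M] [Field L] [Algebra M L] (x : L) (P : M[X])
    (hP : P.Monic) (G : L[X]) (hG : Irreducible G)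
    (hfac : P.map (algebraMap M L) = (X - C x) * G) :
    IsIntegral M x ∧ ((minpoly M x).natDegree = 1 ∨ (minpoly M x).natDegree = P.natDegree) := by
  have hroot : aeval x P = 0 := by
    rw [aeval_def, ← eval_map, hfac]; simp
  have hint : IsIntegral M x := ⟨P, hP, by rwa [aeval_def] at hroot⟩
  refine ⟨hint, ?_⟩
  have hdvd : minpoly M x ∣ P := minpoly.dvd M x hroot
  have hdvdL : (minpoly M x).map (algebraMap M L) ∣ (X - C x) * G := by
    rw [← hfac]; exact Polynomial.map_dvd _ hdvd
  have hr : ((minpoly M x).map (algebraMap M L)).IsRoot x := by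
    rw [IsRoot.def, eval_map, ← aeval_def, minpoly.aeval]
  obtain ⟨H, hH⟩ := dvd_iff_isRoot.mpr hr
  have hX : (X - C x : L[X]) ≠ 0 := X_sub_C_ne_zero x
  rw [hH] at hdvdL
  have hHG : H ∣ G := (mul_dvd_mul_iff_left hX).mp hdvdL
  have hHne : H ≠ 0 := by
    rintro rfl
    rw [mul_zero] at hH
    exact (Polynomial.map_ne_zero (minpoly.ne_zero hint)) hH
  have hdeg : (minpoly M x).natDegree = 1 + H.natDegree := by
    rw [← natDegree_map (algebraMap M L), hH, natDegree_mul hX hHne, natDegree_X_sub_C]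
  have hdegP : P.natDegree = 1 + G.natDegree := by
    rw [← natDegree_map (algebraMap M L), hfac, natDegree_mul hX hG.ne_zero, natDegree_X_sub_C]
  rcases hG.dvd_iff.mp hHG with hu | ha
  · left
    rw [hdeg, natDegree_eq_zero_of_isUnit hu]
  · right
    rw [hdeg, hdegP, natDegree_eq_of_degree_eq (degree_eq_degree_of_associated ha)]

theorem core {F L : Type*} [Field F] [Field L] [Algebra F L] (x w : L) (p : ℕ) (hp : p.Prime)
    (c : F) (hw : w ^ p = algebraMap F L c) (hwx : w ∈ F⟮x⟯) (P : F[X]) (hP : P.Monic)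
    (hnp : P.natDegree ≠ p) (G : L[X]) (hG : Irreducible G)
    (hfac : P.map (algebraMap F L) = (X - C x) * G) : ∃ w' : F, w' ^ p = c := by
  by_contra hcon
  push Not at hcon
  have hirr : Irreducible (X ^ p - C c : F[X]) := X_pow_sub_C_irreducible_of_prime hp hcon
  have hmin : minpoly F w = X ^ p - C c := by
    symm
    apply minpoly.eq_of_irreducible_of_monic hirr
    · simp [hw]
    · exact monic_X_pow_sub_C c hp.ne_zero
  have hwint : IsIntegral F w := by
    refine ⟨X ^ p - C c, monic_X_pow_sub_C c hp.ne_zero, ?_⟩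
    simp [hw]
  have hfw : Module.finrank F F⟮w⟯ = p := by
    rw [adjoin.finrank hwint, hmin, natDegree_X_pow_sub_C]
  obtain ⟨hxint, hx⟩ := natDegree_minpoly_mem x P hP G hG hfac
  have hfx : Module.finrank F F⟮x⟯ = (minpoly F x).natDegree := adjoin.finrank hxint
  -- the tower
  set M := F⟮w⟯ with hM
  have hfacM : (P.map (algebraMap F M)).map (algebraMap M L) = (X - C x) * G := by
    rw [Polynomial.map_map, ← IsScalarTower.algebraMap_eq, hfac]
  obtain ⟨hxintM, hxM⟩ := natDegree_minpoly_mem x (P.map (algebraMap F M)) (hP.map _) G hG hfacM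
  rw [natDegree_map] at hxM
  have hfxM : Module.finrank M M⟮x⟯ = (minpoly M x).natDegree := adjoin.finrank hxintM
  have htower : Module.finrank F M * Module.finrank M M⟮x⟯ = Module.finrank F M⟮x⟯ :=
    Module.finrank_mul_finrank F M M⟮x⟯
  have heq : (M⟮x⟯).restrictScalars F = F⟮x⟯ := by
    rw [hM, adjoin_simple_adjoin_simple]
    apply le_antisymm
    · rw [adjoin_le_iff]
      rintro y (rfl | rfl)
      · exact hwx
      · exact mem_adjoin_simple_self F _
    · apply adjoin.mono
      intro y hy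
      exact Or.inr hy
  have hfeq : Module.finrank F M⟮x⟯ = Module.finrank F F⟮x⟯ := by
    rw [← heq]
    rfl
  rw [hfeq, hfx, hfxM, hfw] at htower
  have hp1 : 1 < p := hp.one_lt
  rcases hx with h1 | h1 <;> rcases hxM with h2 | h2 <;> rw [h1, h2] at htower
  · omega
  · have : p ∣ 1 := ⟨_, htower.symm⟩
    exact hp.one_lt.ne' (Nat.dvd_one.mp this)
  · omega
  · have hpos : 0 < P.natDegree := by
      rw [← h1]; exact minpoly.natDegree_pos hxint
    nlinarith



variable {K : Type*} [Field K]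

theorem exists_tau (t : LaurentSeries K) (ht : t.order = 1) :
    ∃ ε : PowerSeries K, PowerSeries.constantCoeff ε ≠ 0 ∧
      algebraMap (PowerSeries K) (LaurentSeries K) (PowerSeries.X * ε) = t := by
  have htne : t ≠ 0 := by
    rintro rfl
    simp at ht
  refine ⟨LaurentSeries.powerSeriesPart t, ?_, ?_⟩
  · rw [← PowerSeries.coeff_zero_eq_constantCoeff_apply, LaurentSeries.powerSeriesPart_coeff]
    simpa using HahnSeries.coeff_order_eq_zero.not.mpr htne
  · have h := LaurentSeries.single_order_mul_powerSeriesPart t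
    rw [ht] at h
    rw [map_mul, LaurentSeries.coe_algebraMap, HahnSeries.ofPowerSeries_X]
    exact h

theorem not_mem_sq (ε : PowerSeries K) (hε : PowerSeries.constantCoeff ε ≠ 0) :
    PowerSeries.X * ε ∉ (Ideal.span {(PowerSeries.X : PowerSeries K)}) ^ 2 := by
  rw [Ideal.span_singleton_pow, Ideal.mem_span_singleton, pow_two]
  intro h
  have h2 : (PowerSeries.X : PowerSeries K) ∣ ε :=
    (mul_dvd_mul_iff_left PowerSeries.X_ne_zero).mp h
  exact hε (PowerSeries.X_dvd_iff.mp h2)

theorem irr_of_eis (G0 : (PowerSeries K)[X]) (hm : G0.Monic) (hd : 0 < G0.natDegree)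
    (hmem : ∀ n, n < G0.natDegree → G0.coeff n ∈ Ideal.span {(PowerSeries.X : PowerSeries K)})
    (h0 : G0.coeff 0 ∉ (Ideal.span {(PowerSeries.X : PowerSeries K)}) ^ 2) :
    Irreducible (G0.map (algebraMap (PowerSeries K) (LaurentSeries K))) := by
  have hprime : (Ideal.span {(PowerSeries.X : PowerSeries K)}).IsPrime := PowerSeries.span_X_isPrime
  have hE : G0.IsEisensteinAt (Ideal.span {(PowerSeries.X : PowerSeries K)}) :=
    { leading := by
        rw [hm.leadingCoeff]
        exact fun h => hprime.ne_top ((Ideal.eq_top_iff_one _).mpr h)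
      mem := fun {n} hn => hmem n hn
      notMem := h0 }
  have hirr : Irreducible G0 := hE.irreducible hprime hm.isPrimitive hd
  exact (hm.irreducible_iff_irreducible_map_fraction_map (K := LaurentSeries K)).mp hirr

theorem ord_inv (x : LaurentSeries K) (hx : x ≠ 0) : (x⁻¹).order = - x.order := by
  have h := HahnSeries.order_mul hx (inv_ne_zero hx)
  rw [mul_inv_cancel₀ hx, HahnSeries.order_one] at h
  omega

theorem fac3 (x j : LaurentSeries K) (hx : x.order = -1)
    (hrel : (x + 27) * (x + 243) ^ 3 = j * x ^ 3) (hchar : (387420489 : K) ≠ 0) :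
    ∃ G : (LaurentSeries K)[X], Irreducible G ∧
      (X + 27) * (X + 243) ^ 3 - C j * X ^ 3 = (X - C x) * G := by
  have hxne : x ≠ 0 := by
    rintro rfl
    simp at hx
  obtain ⟨ε, hε, hτ⟩ := exists_tau x⁻¹ (by rw [ord_inv x hxne, hx]; norm_num)
  set τ : PowerSeries K := PowerSeries.X * ε with hτdef
  have hτmem : τ ∈ Ideal.span {(PowerSeries.X : PowerSeries K)} :=
    Ideal.mem_span_singleton.mpr (Dvd.intro _ rfl)
  set h0 : PowerSeries K := -387420489 * τ with hh0
  set h1 : PowerSeries K := (h0 - 19131876) * τ with hh1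
  set h2 : PowerSeries K := (h1 - 196830) * τ with hh2
  set G0 : (PowerSeries K)[X] := X ^ 3 + C h2 * X ^ 2 + C h1 * X + C h0 with hG0
  have hdeg : G0.natDegree = 3 := by rw [hG0]; compute_degree!
  have hm : G0.Monic := by rw [hG0]; monicity!
  refine ⟨G0.map (algebraMap _ _), irr_of_eis G0 hm (by rw [hdeg]; norm_num) ?_ ?_, ?_⟩
  · intro n hn
    rw [hdeg] at hn
    have e0 : G0.coeff 0 = h0 := by simp [hG0]
    have e1 : G0.coeff 1 = h1 := by simp [hG0, coeff_C]
    have e2 : G0.coeff 2 = h2 := by simp [hG0]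
    interval_cases n
    · rw [e0]; exact Ideal.mul_mem_left _ _ hτmem
    · rw [e1]; exact Ideal.mul_mem_left _ _ hτmem
    · rw [e2]; exact Ideal.mul_mem_left _ _ hτmem
  · have e0 : G0.coeff 0 = h0 := by simp [hG0]
    rw [e0, hh0, hτdef]
    have : (-387420489 : PowerSeries K) * (PowerSeries.X * ε)
        = PowerSeries.X * (PowerSeries.C (-387420489 : K) * ε) := by
      have : (PowerSeries.C (-387420489 : K) : PowerSeries K) = -387420489 := by
        rw [map_neg, map_ofNat]
      rw [this]; ring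
    rw [this]
    apply not_mem_sq
    rw [map_mul, PowerSeries.constantCoeff_C]
    exact mul_ne_zero (neg_ne_zero.mpr hchar) hε
  · set t := x⁻¹ with ht
    have hab : (C x * C t : (LaurentSeries K)[X]) = 1 := by
      rw [← C_mul, ht, mul_inv_cancel₀ hxne, C_1]
    have hj : j = x + 756 + 196830 * t + 19131876 * t ^ 2 + 387420489 * t ^ 3 := by
      rw [ht]
      field_simp
      linear_combination -hrel
    have a0 : algebraMap (PowerSeries K) (LaurentSeries K) h0 = -387420489 * t := by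
      rw [hh0, map_mul, hτ, map_neg, map_ofNat]
    have a1 : algebraMap (PowerSeries K) (LaurentSeries K) h1 = (-387420489 * t - 19131876) * t := by
      rw [hh1, map_mul, hτ, map_sub, a0, map_ofNat]
    have a2 : algebraMap (PowerSeries K) (LaurentSeries K) h2
        = ((-387420489 * t - 19131876) * t - 196830) * t := by
      rw [hh2, map_mul, hτ, map_sub, a1, map_ofNat]
    rw [hG0]
    simp only [Polynomial.map_add, Polynomial.map_mul, Polynomial.map_pow, Polynomial.map_X,
      Polynomial.map_C, a0, a1, a2, hj]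
    simp only [C_add, C_mul, C_sub, C_pow, C_neg, map_ofNat]
    linear_combination (((-387420489 * C t - 19131876) * C t - 196830) * X ^ 2
      + (-387420489 * C t - 19131876) * X - 387420489) * hab

theorem fac2 (x j : LaurentSeries K) (hx : x.order = -1)
    (hrel : (x + 256) ^ 3 = j * x ^ 2) (hchar : (16777216 : K) ≠ 0) :
    ∃ G : (LaurentSeries K)[X], Irreducible G ∧
      (X + 256) ^ 3 - C j * X ^ 2 = (X - C x) * G := by
  have hxne : x ≠ 0 := by
    rintro rfl
    simp at hx
  obtain ⟨ε, hε, hτ⟩ := exists_tau x⁻¹ (by rw [ord_inv x hxne, hx]; norm_num)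
  set τ : PowerSeries K := PowerSeries.X * ε with hτdef
  have hτmem : τ ∈ Ideal.span {(PowerSeries.X : PowerSeries K)} :=
    Ideal.mem_span_singleton.mpr (Dvd.intro _ rfl)
  set h0 : PowerSeries K := -16777216 * τ with hh0
  set h1 : PowerSeries K := (h0 - 196608) * τ with hh1
  set G0 : (PowerSeries K)[X] := X ^ 2 + C h1 * X + C h0 with hG0
  have hdeg : G0.natDegree = 2 := by rw [hG0]; compute_degree!
  have hm : G0.Monic := by rw [hG0]; monicity!
  refine ⟨G0.map (algebraMap _ _), irr_of_eis G0 hm (by rw [hdeg]; norm_num) ?_ ?_, ?_⟩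
  · intro n hn
    rw [hdeg] at hn
    have e0 : G0.coeff 0 = h0 := by simp [hG0]
    have e1 : G0.coeff 1 = h1 := by simp [hG0, coeff_C]
    interval_cases n
    · rw [e0]; exact Ideal.mul_mem_left _ _ hτmem
    · rw [e1]; exact Ideal.mul_mem_left _ _ hτmem
  · have e0 : G0.coeff 0 = h0 := by simp [hG0]
    rw [e0, hh0, hτdef]
    have : (-16777216 : PowerSeries K) * (PowerSeries.X * ε)
        = PowerSeries.X * (PowerSeries.C (-16777216 : K) * ε) := by
      have : (PowerSeries.C (-16777216 : K) : PowerSeries K) = -16777216 := by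
        rw [map_neg, map_ofNat]
      rw [this]; ring
    rw [this]
    apply not_mem_sq
    rw [map_mul, PowerSeries.constantCoeff_C]
    exact mul_ne_zero (neg_ne_zero.mpr hchar) hε
  · set t := x⁻¹ with ht
    have hab : (C x * C t : (LaurentSeries K)[X]) = 1 := by
      rw [← C_mul, ht, mul_inv_cancel₀ hxne, C_1]
    have hj : j = x + 768 + 196608 * t + 16777216 * t ^ 2 := by
      rw [ht]
      field_simp
      linear_combination -hrel
    have a0 : algebraMap (PowerSeries K) (LaurentSeries K) h0 = -16777216 * t := by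
      rw [hh0, map_mul, hτ, map_neg, map_ofNat]
    have a1 : algebraMap (PowerSeries K) (LaurentSeries K) h1 = (-16777216 * t - 196608) * t := by
      rw [hh1, map_mul, hτ, map_sub, a0, map_ofNat]
    rw [hG0]
    simp only [Polynomial.map_add, Polynomial.map_mul, Polynomial.map_pow, Polynomial.map_X,
      Polynomial.map_C, a0, a1, hj]
    simp only [C_add, C_mul, C_sub, C_pow, C_neg, map_ofNat]
    linear_combination ((-16777216 * C t - 196608) * X - 16777216) * hab


end Desc

namespace Ctx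

variable {N : ℕ} [NeZero N] [Cond N] {ℓ p : ℕ} {A : ValuationSubring Kb} (𝒞 : Ctx N ℓ p A)

/-- task D.  `Rel(X) = B(X) - j A(X) = (X - x) G(X)` over `K((q))`, `G` is Eisenstein over `K[[q]]`
(`g₀ = -c₀/x`, `g₁ = (g₀ - c₁)/x`, ...), hence irreducible over `K((q))`; so for every field
`K(j) ≤ M ≤ K((q))`: `[M(x) : M] ∈ {1, deg B}` (`deg B = 4` for `line3`, `3` for `line2`).  If
`w ∈ E₀ = F_K(x)`, `w^p ∈ F_K`, `w ∉ F_K` then `[F_K(w) : F_K] = p` (Kummer, `ζ_p ∈ K`) and
`p * [E₀ : F_K(w)] = [E₀ : F_K]` with both degrees in `{1, deg B}`: impossible (`p ≠ 3` when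
`deg B = 3`, because then `ℓ = 3`). -/
theorem descent (h : ∃ w ∈ 𝒞.E0, w ^ p = (𝒞.a / 𝒞.b).1) : ∃ w : 𝒞.FK, w ^ p = 𝒞.a / 𝒞.b := by
  obtain ⟨w, hwE, hw⟩ := h
  set x := xK 𝒞.K 𝒞.Λ with hx
  have hwx : w ∈ (𝒞.FK)⟮x⟯ := by
    have h1 : ((𝒞.FK)⟮x⟯).restrictScalars 𝒞.K = 𝒞.E0 :=
      IntermediateField.adjoin_adjoin_left 𝒞.K (divisorExpansionsC 𝒞.K N) {x}
    rw [← h1] at hwE
    exact hwE
  have hxo : x.order = -1 := order_xK 𝒞.K 𝒞.Λ
  set jF : 𝒞.FK := ⟨jqModC 𝒞.K, jqModC_mem_full 𝒞.K N⟩ with hjF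
  have hjmap : algebraMap 𝒞.FK (LaurentSeries 𝒞.K) jF = jqModC 𝒞.K := rfl
  by_cases hℓ3 : ℓ = 3
  · have hΛ : 𝒞.Λ = line2 := by simp [Ctx.Λ, lineOf, hℓ3]
    have hrel := xK_rel 𝒞.K 𝒞.Λ (Or.inl hΛ)
    rw [← hx, hΛ] at hrel
    simp only [line2, map_pow, map_add, aeval_X, map_ofNat] at hrel
    obtain ⟨G, hG, hfac⟩ := Desc.fac2 x (jqModC 𝒞.K) hxo hrel (by norm_num)
    refine Desc.core x w p 𝒞.hp (𝒞.a / 𝒞.b) hw hwx ((X + 256) ^ 3 - C jF * X ^ 2) ?_ ?_ G hG ?_
    · monicity!
    · have : ((X + 256) ^ 3 - C jF * X ^ 2 : (𝒞.FK)[X]).natDegree = 3 := by compute_degree!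
      rw [this]
      intro h3
      exact 𝒞.hpℓ (by rw [← h3, hℓ3])
    · rw [← hfac]
      simp only [Polynomial.map_sub, Polynomial.map_mul, Polynomial.map_pow, Polynomial.map_add,
        Polynomial.map_X, Polynomial.map_C, Polynomial.map_ofNat, hjmap]
  · have hΛ : 𝒞.Λ = line3 := by simp [Ctx.Λ, lineOf, hℓ3]
    have hrel := xK_rel 𝒞.K 𝒞.Λ (Or.inr hΛ)
    rw [← hx, hΛ] at hrel
    simp only [line3, map_pow, map_add, map_mul, aeval_X, map_ofNat] at hrel
    obtain ⟨G, hG, hfac⟩ := Desc.fac3 x (jqModC 𝒞.K) hxo hrel (by norm_num)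
    refine Desc.core x w p 𝒞.hp (𝒞.a / 𝒞.b) hw hwx
      ((X + 27) * (X + 243) ^ 3 - C jF * X ^ 3) ?_ ?_ G hG ?_
    · monicity!
    · have : ((X + 27) * (X + 243) ^ 3 - C jF * X ^ 3 : (𝒞.FK)[X]).natDegree = 4 := by
        compute_degree!
      rw [this]
      intro h4
      have := 𝒞.hp
      rw [← h4] at this
      norm_num at this
    · rw [← hfac]
      simp only [Polynomial.map_sub, Polynomial.map_mul, Polynomial.map_pow, Polynomial.map_add,
        Polynomial.map_X, Polynomial.map_C, Polynomial.map_ofNat, hjmap]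

end Ctx

end Fermat.Agent.T24.T18
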