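import Fermat.Agent.S18.KPack
import Fermat.Agent.S48.T18.Ctx
import Fermat.Agent.S18.H.Hensel

set_option autoImplicit false

/-! # T18 (twin of S18) chapter K: descent of the data to a number field -/

noncomputable section

namespace Fermat.Agent.T24.T18

open Fermat.Agent.S18 Fermat.Agent.S24

open Polynomial IntermediateField ModularCurve AlgebraicCurve

namespace KPack

/-- the subfield of `ℚ̄((q))` generated by the constants of `K₀` and the `j_d`. -/
def G (N : ℕ) [Cond N] (K₀ : IntermediateField ℚ Kb) : Subfield (LaurentSeries Kb) :=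
  Subfield.closure ((fun c : Kb => (HahnSeries.single (0 : ℤ) c : LaurentSeries Kb)) '' (K₀ : Set Kb) ∪
    divisorExpansionsC Kb N)

theorem G_mono (N : ℕ) [Cond N] {K₀ K₁ : IntermediateField ℚ Kb} (h : K₀ ≤ K₁) : G N K₀ ≤ G N K₁ :=
  Subfield.closure_mono (Set.union_subset_union_left _ (Set.image_mono h))

theorem coeffEmb_mem_G (N : ℕ) [NeZero N] [Cond N] (z : LaurentSeries ℚ) (hz : z ∈ modularFunctionFieldFull N) :
    coeffEmb Kb z ∈ G N ⊥ := by
  have hz' : z ∈ Subfield.closure (Set.range (algebraMap ℚ (LaurentSeries ℚ)) ∪ divisorExpansions N) :=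
    hz
  clear hz
  induction hz' using Subfield.closure_induction with
  | mem y hy =>
      rcases hy with ⟨r, rfl⟩ | ⟨d, hd, hdN, rfl⟩ | ⟨e, he0, b, he, rfl⟩
      · refine Subfield.subset_closure (Or.inl ⟨algebraMap ℚ Kb r, (⊥ : IntermediateField ℚ Kb).algebraMap_mem r, ?_⟩)
        rw [algebraMap_laurentSeries_eq_single, coeffEmb, coeffMap_single]
      · refine Subfield.subset_closure (Or.inr (Or.inl ⟨d, hd, hdN, ?_⟩))
        rw [coeffEmb, coeffMap_qExpand, ← jqModC_rat, coeffMap_jqModC]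
      · refine Subfield.subset_closure (Or.inr (Or.inr ⟨e, he0, b, he, ?_⟩))
        rw [TserC, coeffEmb, coeffMap_qExpand]
  | one => simp
  | add x y _ _ hx hy => simpa using add_mem hx hy
  | neg x _ hx => simpa using neg_mem hx
  | inv x _ hx => simpa using InvMemClass.inv_mem hx
  | mul x y _ _ hx hy => simpa using mul_mem hx hy

theorem exists_mem_G (N : ℕ) [NeZero N] [Cond N] (f : LaurentSeries Kb) (hf : f ∈ modularFunctionFieldBar N) :
    ∃ K₀ : IntermediateField ℚ Kb, FiniteDimensional ℚ K₀ ∧ f ∈ G N K₀ := by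
  rw [mem_laurentBaseChange_iff] at hf
  induction hf using Subfield.closure_induction with
  | mem y hy =>
      rcases hy with ⟨c, rfl⟩ | ⟨z, hz, rfl⟩
      · refine ⟨ℚ⟮c⟯, IntermediateField.adjoin.finiteDimensional ((AlgebraicClosure.isAlgebraic ℚ).isIntegral.isIntegral c), ?_⟩
        refine Subfield.subset_closure (Or.inl ⟨c, IntermediateField.mem_adjoin_simple_self ℚ c, ?_⟩)
        rw [algebraMap_laurentSeries_eq_single]
      · exact ⟨⊥, inferInstance, coeffEmb_mem_G N z hz⟩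
  | one => exact ⟨⊥, inferInstance, one_mem _⟩
  | add x y _ _ hx hy =>
      obtain ⟨K₁, h₁, hx⟩ := hx
      obtain ⟨K₂, h₂, hy⟩ := hy
      exact ⟨K₁ ⊔ K₂, IntermediateField.finiteDimensional_sup K₁ K₂,
        add_mem (G_mono N le_sup_left hx) (G_mono N le_sup_right hy)⟩
  | neg x _ hx =>
      obtain ⟨K₁, h₁, hx⟩ := hx
      exact ⟨K₁, h₁, neg_mem hx⟩
  | inv x _ hx =>
      obtain ⟨K₁, h₁, hx⟩ := hx
      exact ⟨K₁, h₁, InvMemClass.inv_mem hx⟩
  | mul x y _ _ hx hy =>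
      obtain ⟨K₁, h₁, hx⟩ := hx
      obtain ⟨K₂, h₂, hy⟩ := hy
      exact ⟨K₁ ⊔ K₂, IntermediateField.finiteDimensional_sup K₁ K₂,
        mul_mem (G_mono N le_sup_left hx) (G_mono N le_sup_right hy)⟩

theorem exists_descent (N : ℕ) [NeZero N] [Cond N] {K : Type} [Field K] [Algebra ℚ K] (ι : K →+* Kb)
    (K₀ : IntermediateField ℚ Kb) (hK : ∀ c ∈ K₀, ∃ c' : K, ι c' = c)
    (f : LaurentSeries Kb) (hf : f ∈ G N K₀) :
    ∃ g : modularFunctionFieldFullC K N, coeffMap ι g.1 = f := by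
  induction hf using Subfield.closure_induction with
  | mem y hy =>
      rcases hy with ⟨c, hc, rfl⟩ | ⟨d, hd, hdN, rfl⟩ | ⟨e, he0, b, he, rfl⟩
      · obtain ⟨c', rfl⟩ := hK c hc
        refine ⟨⟨algebraMap K _ c', (modularFunctionFieldFullC K N).algebraMap_mem c'⟩, ?_⟩
        simp only [algebraMap_laurentSeries_eq_single, coeffMap_single]
      · refine ⟨⟨qExpand K d (jqModC K), jqModCd_mem_full K N hdN⟩, ?_⟩
        simp only [coeffMap_qExpand, coeffMap_jqModC]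
      · refine ⟨⟨TserC K (Cond.D N) e b, TserC_mem_full K N he b⟩, ?_⟩
        simp only [TserC, coeffMap_qExpand, coeffMap_coeffEmb']
  | one => exact ⟨1, by simp⟩
  | add x y _ _ hx hy =>
      obtain ⟨gx, rfl⟩ := hx
      obtain ⟨gy, rfl⟩ := hy
      exact ⟨gx + gy, by simp⟩
  | neg x _ hx =>
      obtain ⟨gx, rfl⟩ := hx
      exact ⟨-gx, by simp⟩
  | inv x _ hx =>
      obtain ⟨gx, rfl⟩ := hx
      exact ⟨gx⁻¹, by simp⟩
  | mul x y _ _ hx hy =>
      obtain ⟨gx, rfl⟩ := hx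
      obtain ⟨gy, rfl⟩ := hy
      exact ⟨gx * gy, by simp⟩

theorem exists_numberField (K₁ : IntermediateField ℚ Kb) (h₁ : FiniteDimensional ℚ K₁) :
    ∃ (K : Type) (_ : Field K) (_ : NumberField K) (_ : IsGalois ℚ K) (ι : K →+* Kb),
      ∀ c ∈ K₁, ∃ c' : K, ι c' = c := by
  have : Algebra.IsAlgebraic ℚ Kb := AlgebraicClosure.isAlgebraic ℚ
  have : Normal ℚ Kb := normal_iff.mpr fun x =>
    ⟨(AlgebraicClosure.isAlgebraic ℚ).isIntegral.isIntegral x, IsAlgClosed.splits _⟩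
  let K₂ : IntermediateField ℚ Kb := IntermediateField.normalClosure ℚ K₁ Kb
  have : FiniteDimensional ℚ K₂ := normalClosure.is_finiteDimensional ℚ K₁ Kb
  have : Normal ℚ K₂ := normalClosure.normal ℚ K₁ Kb
  refine ⟨K₂, inferInstance, ⟨⟩, ⟨⟩, K₂.val.toRingHom, fun c hc => ?_⟩
  exact ⟨⟨c, IntermediateField.le_normalClosure K₁ hc⟩, rfl⟩


theorem exists_pow_eq_of_leadingCoeff {k : Type*} [Field k] [CharZero k] (m : ℕ) (hm : 0 < m)
    (z : LaurentSeries k) (hz0 : z ≠ 0) (hz : (m : ℤ) ∣ z.order) (t0 : k)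
    (ht0 : t0 ^ m = z.leadingCoeff) : ∃ w : LaurentSeries k, w ^ m = z := by
  obtain ⟨d, hd⟩ := hz
  set U : PowerSeries k := z.powerSeriesPart with hU
  have hzU : HahnSeries.single z.order (1 : k) * HahnSeries.ofPowerSeries ℤ k U = z :=
    LaurentSeries.single_order_mul_powerSeriesPart z
  have hUc : PowerSeries.constantCoeff (R := k) U = z.leadingCoeff := by
    rw [← PowerSeries.coeff_zero_eq_constantCoeff_apply, hU, LaurentSeries.powerSeriesPart_coeff]
    simp [HahnSeries.leadingCoeff_eq]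
  have hU0 : PowerSeries.constantCoeff (R := k) U ≠ 0 := by
    rw [hUc]
    exact HahnSeries.leadingCoeff_ne_zero.2 hz0
  rw [← hUc] at ht0
  have ht00 : t0 ≠ 0 := by
    intro h
    rw [h, zero_pow hm.ne'] at ht0
    exact hU0 ht0.symm
  obtain ⟨T, hT, -⟩ := H.exists_root_powerSeries (X ^ m - C U) t0
    (by simp [ht0])
    (by
      simp only [Polynomial.map_sub, Polynomial.map_pow, map_X, map_C, derivative_sub,
        derivative_C, derivative_X_pow, sub_zero, eval_mul, eval_pow, eval_X, eval_C]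
      exact mul_ne_zero (Nat.cast_ne_zero.2 hm.ne') (pow_ne_zero _ ht00))
  have hT' : T ^ m = U := by
    simpa [sub_eq_zero] using hT
  refine ⟨HahnSeries.single d (1 : k) * HahnSeries.ofPowerSeries ℤ k T, ?_⟩
  rw [mul_pow, ← map_pow (HahnSeries.ofPowerSeries ℤ k), hT', HahnSeries.single_pow, one_pow]
  conv_rhs => rw [← hzU, hd]
  simp


theorem jq_mem_FN (N : ℕ) [NeZero N] [Cond N] : jqModC Kb ∈ modularFunctionFieldBar N := by
  have h : coeffEmb Kb jq ∈ modularFunctionFieldBar N :=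
    coeffEmb_mem_laurentBaseChange Kb (by
      have h := jqd_mem_full N (one_dvd N)
      rw [qExpand_one_apply] at h
      exact IntermediateField.adjoin.mono ℚ _ _ Set.subset_union_left h)
  rwa [coeffEmb, ← jqModC_rat, coeffMap_jqModC] at h

theorem order_jqModC (k : Type*) [Field k] : (jqModC k).order = -1 := by
  have h0 : jqModC k ≠ 0 := jqModC_ne_zero_of_nontrivial k
  apply le_antisymm
  · exact HahnSeries.order_le_of_coeff_ne_zero (by rw [coeff_jqModC_neg_one]; exact one_ne_zero)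
  · by_contra hlt
    rw [not_le] at hlt
    exact HahnSeries.leadingCoeff_ne_zero.2 h0
      (by rw [HahnSeries.leadingCoeff_eq]; exact coeff_jqModC_of_lt k hlt)

theorem isVal_order_FN (N : ℕ) [NeZero N] [Cond N] : S24.IsVal Kb (fun f : FN N => f.1.order) where
  map_mul f g hf hg := HahnSeries.order_mul (fun h => hf (Subtype.ext h)) (fun h => hg (Subtype.ext h))
  map_add f g _ _ hfg := HahnSeries.min_order_le_order_add (fun h => hfg (Subtype.ext h))
  map_const a _ := by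
    show 0 ≤ (algebraMap Kb (LaurentSeries Kb) a).order
    rw [algebraMap_laurentSeries_eq_single]
    exact (HahnSeries.order_C).ge
  nontrivial := ⟨⟨jqModC Kb, jq_mem_FN N⟩,
    fun h => jqModC_ne_zero_of_nontrivial Kb (congrArg Subtype.val h), by
      show (jqModC Kb).order ≠ 0
      rw [order_jqModC]; decide⟩

theorem dvd_order (N : ℕ) [NeZero N] [Cond N] (p : ℕ) (f : FN N) (hf : f ≠ 0)
    (hord : ∀ v : Place Kb (FN N), (p : ℤ) ∣ v.ord f) : (p : ℤ) ∣ f.1.order := by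
  obtain ⟨v, m, -, hv, -⟩ := (isVal_order_FN N).exists_place
  have := hv f hf
  rw [this]
  exact Dvd.dvd.mul_left (hord v) m


theorem order_coeffMap {k k' : Type*} [Field k] [Field k'] (ι : k →+* k') (x : LaurentSeries k) :
    (coeffMap ι x).order = x.order := by
  by_cases hx : x = 0
  · simp [hx]
  have hx' : coeffMap ι x ≠ 0 := by
    rw [Ne, map_eq_zero]; exact hx
  apply le_antisymm
  · apply HahnSeries.order_le_of_coeff_ne_zero
    rw [coeffMap_coeff, Ne, map_eq_zero, ← HahnSeries.leadingCoeff_eq]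
    exact HahnSeries.leadingCoeff_ne_zero.2 hx
  · apply HahnSeries.order_le_of_coeff_ne_zero
    have := HahnSeries.leadingCoeff_ne_zero.2 hx'
    rw [HahnSeries.leadingCoeff_eq, coeffMap_coeff, Ne, map_eq_zero] at this
    exact this

theorem leadingCoeff_coeffMap {k k' : Type*} [Field k] [Field k'] (ι : k →+* k')
    (x : LaurentSeries k) : (coeffMap ι x).leadingCoeff = ι x.leadingCoeff := by
  rw [HahnSeries.leadingCoeff_eq, HahnSeries.leadingCoeff_eq, order_coeffMap, coeffMap_coeff]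

end KPack

/-- task K.  Every element of `FN N` comes from `F_K` for a number field `K ⊆ ℚ̄` (adjoin induction;
monotone in `K`).  Take `K` = normal closure of `K_a ⊔ K_b ⊔ ℚ(ζ_p) ⊔ ℚ(ζ_N) ⊔ ℚ(λ^(1/p))`, `λ` the leading
coefficient of `a/b`.  The `q`-order of `a/b` is divisible by `p` (`hord` at the place of `FN N` given
by the `q`-order: S24 `isVal_order`, `IsVal.exists_place`; `j` has order `-1` so the place is
normalised), hence `a/b = λ q^(pn) (1 + ⋯)` has a `p`-th root in `K((q))`. -/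
theorem exists_ctx (N : ℕ) [NeZero N] [Cond N] (ℓ p : ℕ) (hℓ : ℓ.Prime) (hℓN : ¬ ℓ ∣ N) (hp : p.Prime)
    (hpℓ : p ≠ ℓ) (A : ValuationSubring Kb) (hA : A.LiesOverPrime ℓ) (a b : FN N)
    (ha : IntA A a.1) (hb : IntA A b.1) (hb' : ¬ SmallA A b.1) (hab : SmallA A (a.1 - b.1))
    (hord : ∀ v : Place Kb (FN N), (p : ℤ) ∣ v.ord (a / b)) :
    ∃ 𝒞 : Ctx N ℓ p A, toFN 𝒞.ι N 𝒞.a = a ∧ toFN 𝒞.ι N 𝒞.b = b := by
  have hb0 : b ≠ 0 := by
    rintro rfl
    refine hb' fun n => ?_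
    rw [ValuationSubring.mem_nonunits_iff]
    simp
  have ha0 : a ≠ 0 := by
    rintro rfl
    refine hb' fun n => ?_
    have h := hab n
    rw [ValuationSubring.mem_nonunits_iff] at h ⊢
    simpa using h
  have hab0 : a / b ≠ 0 := div_ne_zero ha0 hb0
  have hdvd : (p : ℤ) ∣ (a / b).1.order := KPack.dvd_order N p (a / b) hab0 hord
  obtain ⟨Ka, hKa, haG⟩ := KPack.exists_mem_G N a.1 a.2
  obtain ⟨Kb', hKb, hbG⟩ := KPack.exists_mem_G N b.1 b.2
  obtain ⟨μ, hμ⟩ := IsAlgClosed.exists_pow_nat_eq ((a / b).1.leadingCoeff) hp.pos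
  have : NeZero p := ⟨hp.ne_zero⟩
  obtain ⟨ζ, hζ⟩ := HasEnoughRootsOfUnity.exists_primitiveRoot Kb p
  obtain ⟨ζN, hζN⟩ := HasEnoughRootsOfUnity.exists_primitiveRoot Kb N
  have hint : ∀ c : Kb, FiniteDimensional ℚ ℚ⟮c⟯ := fun c =>
    IntermediateField.adjoin.finiteDimensional ((AlgebraicClosure.isAlgebraic ℚ).isIntegral.isIntegral c)
  have hμf := hint μ
  have hζf := hint ζ
  have hζNf := hint ζN
  obtain ⟨K₁, hK₁, h1, h2, h3, h4, h5⟩ : ∃ K₁ : IntermediateField ℚ Kb, FiniteDimensional ℚ K₁ ∧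
      Ka ≤ K₁ ∧ Kb' ≤ K₁ ∧ μ ∈ K₁ ∧ ζ ∈ K₁ ∧ ζN ∈ K₁ := by
    have f1 : FiniteDimensional ℚ ↥(Ka ⊔ Kb') := IntermediateField.finiteDimensional_sup _ _
    have f2 : FiniteDimensional ℚ ↥(Ka ⊔ Kb' ⊔ ℚ⟮μ⟯) := IntermediateField.finiteDimensional_sup _ _
    have f3 : FiniteDimensional ℚ ↥(Ka ⊔ Kb' ⊔ ℚ⟮μ⟯ ⊔ ℚ⟮ζ⟯) :=
      IntermediateField.finiteDimensional_sup _ _
    refine ⟨Ka ⊔ Kb' ⊔ ℚ⟮μ⟯ ⊔ ℚ⟮ζ⟯ ⊔ ℚ⟮ζN⟯, IntermediateField.finiteDimensional_sup _ _, ?_, ?_, ?_, ?_, ?_⟩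
    · exact le_sup_left.trans (le_sup_left.trans (le_sup_left.trans le_sup_left))
    · exact le_sup_right.trans (le_sup_left.trans (le_sup_left.trans le_sup_left))
    · exact (le_sup_right.trans (le_sup_left.trans le_sup_left) :
        ℚ⟮μ⟯ ≤ Ka ⊔ Kb' ⊔ ℚ⟮μ⟯ ⊔ ℚ⟮ζ⟯ ⊔ ℚ⟮ζN⟯) (IntermediateField.mem_adjoin_simple_self ℚ μ)
    · exact (le_sup_right.trans le_sup_left :
        ℚ⟮ζ⟯ ≤ Ka ⊔ Kb' ⊔ ℚ⟮μ⟯ ⊔ ℚ⟮ζ⟯ ⊔ ℚ⟮ζN⟯) (IntermediateField.mem_adjoin_simple_self ℚ ζ)
    · exact (le_sup_right :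
        ℚ⟮ζN⟯ ≤ Ka ⊔ Kb' ⊔ ℚ⟮μ⟯ ⊔ ℚ⟮ζ⟯ ⊔ ℚ⟮ζN⟯) (IntermediateField.mem_adjoin_simple_self ℚ ζN)
  obtain ⟨K, fK, nfK, galK, ι, hι⟩ := KPack.exists_numberField K₁ hK₁
  obtain ⟨a', ha'⟩ := KPack.exists_descent N ι K₁ hι a.1 (KPack.G_mono N h1 haG)
  obtain ⟨b', hb''⟩ := KPack.exists_descent N ι K₁ hι b.1 (KPack.G_mono N h2 hbG)
  obtain ⟨μ', rfl⟩ := hι μ h3
  obtain ⟨ζ', rfl⟩ := hι ζ h4
  obtain ⟨ζN', rfl⟩ := hι ζN h5
  have hta : toFN ι N a' = a := Subtype.ext ha'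
  have htb : toFN ι N b' = b := Subtype.ext hb''
  have htab : toFN ι N (a' / b') = a / b := by rw [map_div₀, hta, htb]
  have hcab : coeffMap ι (a' / b').1 = (a / b).1 := by rw [← htab, toFN_coe]
  have hab0' : (a' / b').1 ≠ 0 := by
    intro h
    apply hab0
    apply Subtype.ext
    rw [← hcab, h, map_zero]
    rfl
  obtain ⟨u, hu⟩ := KPack.exists_pow_eq_of_leadingCoeff p hp.pos (a' / b').1 hab0'
    (by rw [← KPack.order_coeffMap ι, hcab]; exact hdvd) μ'
    (by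
      apply ι.injective
      rw [map_pow, hμ, ← hcab, KPack.leadingCoeff_coeffMap])
  exact ⟨{ hℓ := hℓ, hℓN := hℓN, hA := hA, hp := hp, hpℓ := hpℓ, K := K, ι := ι
           ζ := ζ', hζ := hζ.of_map_of_injective ι.injective
           ζN := ζN', hζN := hζN.of_map_of_injective ι.injective
           a := a', b := b'
           ha := by rw [ha']; exact ha
           hb := by rw [hb'']; exact hb
           hb' := by rw [hb'']; exact hb'
           hab := by rw [ha', hb'']; exact hab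
           hord := by rw [htab]; exact hord
           u := u, hu := hu }, hta, htb⟩

end Fermat.Agent.T24.T18
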