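import Fermat.Agent.S48.T18.Tame
import Fermat.Agent.S48.V1.Main
import Fermat.Agent.S48.V1.Fam

set_option autoImplicit false

/-!
# T18 : chapter V (vertical side) : the statement consumed by `CCPrime`

`V1.main` applied to `E0 = 𝒞.triv.E` (the field of the trivial context, `= F_K(x)`) and `E = 𝒞.E`.
The vertical modular input is `Ctx.distinctRed` (chapter V1: `ConjFam.distinctRed` + the family `Y_{a,e}`).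
-/

noncomputable section

namespace Fermat.Agent.T24.T18

open Fermat.Agent.S18 Fermat.Agent.S24

open ModularCurve Polynomial IntermediateField AlgebraicCurve Fermat.Agent.S18.V

namespace Ctx

variable {N : ℕ} [NeZero N] [Cond N] {ℓ p : ℕ} {A : ValuationSubring Kb} (𝒞 : Ctx N ℓ p A)

/-- `DistinctRed` for `F_K(x)` (chapter V1: `ConjFam.distinctRed` for the family `Y_{a,e}`). -/
theorem distinctRed (hu : 𝒞.u ∈ 𝒞.E0) :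
    DistinctRed (vdata 𝒞.R 𝒞.K) 𝒞.x (inc 𝒞.K (xK 𝒞.K 𝒞.Λ)) := by
  haveI : Fact ℓ.Prime := ⟨𝒞.hℓ⟩
  haveI := 𝒞.isDVR
  obtain ⟨k, hk⟩ := Cond.dvd (N := N)
  have hζ : IsPrimitiveRoot (𝒞.ζN ^ k) (Cond.D N) :=
    𝒞.hζN.pow (Nat.pos_of_ne_zero (NeZero.ne N)) (hk.trans (mul_comm _ _))
  have H : VHyp 𝒞.R N ℓ (𝒞.x : LaurentSeries 𝒞.K) := 𝒞.vhyp
  refine (S48.V1.conjFam 𝒞.ι (S48.V1.isUnit_D H) hζ).distinctRed H ?_ ?_ ?_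
  · exact IntermediateField.adjoin.mono 𝒞.K _ _ fun y hy => Or.inl (Or.inl hy)
  · intro i
    exact IntermediateField.adjoin.mono 𝒞.K _ _ Set.subset_union_left
      (S48.V1.Yfam_mem_full 𝒞.K N _ i)
  · refine (𝒞.E_le_E0 hu).trans (IntermediateField.adjoin_le_iff.2 ?_)
    rintro y ((hy | ⟨e, he0, b, he, rfl⟩) | hy)
    · exact IntermediateField.subset_adjoin _ _
        (Or.inl (Or.inl (IntermediateField.subset_adjoin 𝒞.K _ hy)))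
    · exact IntermediateField.adjoin.mono 𝒞.K _ _ Set.subset_union_left
        (S48.V1.TserC_mem_adjoin 𝒞.ι hζ e he b)
    · exact IntermediateField.subset_adjoin _ _ (Or.inr hy)

theorem distinctRed_triv :
    DistinctRed (vdata 𝒞.triv.R 𝒞.triv.K) 𝒞.triv.x (inc 𝒞.triv.K (xK 𝒞.triv.K 𝒞.triv.Λ)) :=
  𝒞.triv.distinctRed (one_mem _)

/-- the field `F_K(x)` (in the form `𝒞.triv.E`). -/
def E1 : IntermediateField 𝒞.K (LaurentSeries 𝒞.K) := 𝒞.triv.E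

theorem E1_le_E0 : 𝒞.E1 ≤ 𝒞.E0 :=
  𝒞.triv.E_le_E0 (one_mem _)

theorem E1_le_E : 𝒞.E1 ≤ 𝒞.E := 𝒞.E1_le_E0.trans 𝒞.E0_le_E

theorem E0_le_E1 : 𝒞.E0 ≤ 𝒞.E1 := 𝒞.triv.E0_le_E

theorem E_le : 𝒞.E ≤ IntermediateField.adjoin 𝒞.K ((𝒞.E1 : Set (LaurentSeries 𝒞.K)) ∪ {𝒞.u}) := by
  refine IntermediateField.adjoin_le_iff.2 ?_
  rintro y (hy | hy | hy)
  · exact IntermediateField.subset_adjoin _ _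
      (Or.inl (𝒞.E0_le_E1 (IntermediateField.subset_adjoin _ _ (Or.inl hy))))
  · exact IntermediateField.subset_adjoin _ _
      (Or.inl (𝒞.E0_le_E1 (IntermediateField.subset_adjoin _ _ (Or.inr hy))))
  · exact IntermediateField.subset_adjoin _ _ (Or.inr hy)

theorem FK_le_E0 : 𝒞.FK ≤ 𝒞.E0 :=
  IntermediateField.adjoin.mono _ _ _ Set.subset_union_left

theorem b_ne_zero : 𝒞.b ≠ 0 := by
  intro h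
  apply 𝒞.hb'
  intro n
  rw [h]
  have h1 : ((0 : modularFunctionFieldFullC 𝒞.K N).1 : LaurentSeries 𝒞.K) = 0 := rfl
  rw [h1, map_zero, HahnSeries.coeff_zero, ValuationSubring.mem_nonunits_iff, map_zero]
  exact zero_lt_one

theorem gOne : S48.V1.GOne 𝒞.R (𝒞.a / 𝒞.b).1 := by
  obtain ⟨a₀, b₀, ha, hb, h1, h2⟩ := 𝒞.abhyp
  refine ⟨a₀, b₀, ?_, h1, h2⟩
  rw [ha, hb]
  exact congrArg Subtype.val (div_mul_cancel₀ 𝒞.a 𝒞.b_ne_zero)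

/-- **Chapter V.** -/
theorem exists_vdata (h : ¬ ∃ w ∈ 𝒞.E0, w ^ p = (𝒞.a / 𝒞.b).1) :
    ∃ (𝒱 : VData 𝒞.R 𝒞.K) (ιx : 𝒱.Ω), IsGauss 𝒱 ιx ∧ DistinctRed 𝒱 𝒞.x ιx ∧
      (∀ φ ∈ Emb 𝒱 𝒞.x ιx, φ 𝒞.e ∈ 𝒱.O.nonunits ∨ φ 𝒞.e - 1 ∈ 𝒱.O.nonunits) ∧
      (∃ φ ∈ Emb 𝒱 𝒞.x ιx, φ 𝒞.e ∈ 𝒱.O.nonunits) ∧
      (∃ φ ∈ Emb 𝒱 𝒞.x ιx, φ 𝒞.e - 1 ∈ 𝒱.O.nonunits) := by
  haveI := 𝒞.isDVR
  have htame : IsTameP1 (vdata 𝒞.R 𝒞.K) (⟨xK 𝒞.K 𝒞.Λ, 𝒞.triv.x_mem⟩ : ↥𝒞.E1) (inc 𝒞.K (xK 𝒞.K 𝒞.Λ)) ℂ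
      𝒞.jK 𝒞.cR N 𝒞.Λ.ec N := 𝒞.triv.isTameP1 𝒞.distinctRed_triv
  have hconst : ∀ y : ↥𝒞.E1, IsAlgebraic 𝒞.K y → y ∈ (algebraMap 𝒞.K ↥𝒞.E1).range := 𝒞.triv.hconst
  exact ⟨V.vdata 𝒞.R 𝒞.K, V.inc 𝒞.K (xK 𝒞.K 𝒞.Λ),
    S48.V1.main 𝒞.E1 𝒞.E 𝒞.E1_le_E 𝒞.u 𝒞.u_mem 𝒞.E_le (xK 𝒞.K 𝒞.Λ) 𝒞.triv.x_mem
      htame hconst p 𝒞.hp 𝒞.isUnit_p 𝒞.ζ 𝒞.hζ (𝒞.a / 𝒞.b).1
      (𝒞.E0_le_E1 (𝒞.FK_le_E0 (𝒞.a / 𝒞.b).2)) 𝒞.gOne 𝒞.hu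
      (fun ⟨w, hw, hw'⟩ => h ⟨w, 𝒞.E1_le_E0 hw, hw'⟩)⟩

end Ctx

end Fermat.Agent.T24.T18
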