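import Fermat.Agent.S18.CCPrime
import Fermat.Agent.S18.ACC
import Fermat.Agent.S18.Basic
import Fermat.Agent.S48.T18.VMain
import Fermat.Agent.S48.T18.HSide
import Fermat.Agent.S48.T18.Descent
import Fermat.Agent.S48.T18.KPack

set_option autoImplicit false

/-! # T18 (twin of S18): the core claim for a prime exponent (assembly) -/

noncomputable section

namespace Fermat.Agent.T24.T18

open Fermat.Agent.S18 Fermat.Agent.S24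

open Polynomial IntermediateField ModularCurve AlgebraicCurve

namespace Ctx

variable {N : ℕ} [NeZero N] [Cond N] {ℓ p : ℕ} {A : ValuationSubring Kb} (𝒞 : Ctx N ℓ p A)

theorem exists_root_E0 : ∃ w ∈ 𝒞.E0, w ^ p = (𝒞.a / 𝒞.b).1 := by
  by_contra h
  obtain ⟨𝒱, ιx, hG, hD, he, h0, h1⟩ := 𝒞.exists_vdata h
  haveI := 𝒞.isDVR
  exact acc 𝒞.R 𝒞.K 𝒞.E 𝒞.x 𝒞.x_transcendental 𝒞.finiteDimensional 𝒞.hconst 𝒱 ιx hG hD 𝒞.e he h0 h1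
    ℂ 𝒞.jK 𝒞.cR 𝒞.isUnit_c N 𝒞.Λ.ec N 𝒞.isUnit_N 𝒞.isUnit_ec 𝒞.isUnit_N 𝒞.irr0 𝒞.irrc 𝒞.irrinf
    𝒞.Hgen 𝒞.H0 𝒞.Hc 𝒞.Hinf

end Ctx

theorem cc_prime (N : ℕ) [NeZero N] [Cond N] (ℓ p : ℕ) (hℓ : ℓ.Prime) (hℓN : ¬ ℓ ∣ N) (hp : p.Prime)
    (hpℓ : p ≠ ℓ) : CCStatement N ℓ p := by
  intro A hA a b ha hb hb' hab hord
  obtain ⟨𝒞, rfl, rfl⟩ := exists_ctx N ℓ p hℓ hℓN hp hpℓ A hA a b ha hb hb' hab hord
  obtain ⟨w, hw⟩ := 𝒞.descent 𝒞.exists_root_E0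
  exact ⟨toFN 𝒞.ι N w, by rw [← map_pow, hw, map_div₀]⟩

end Fermat.Agent.T24.T18
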