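import Fermat.Agent.S18.XSer
import Fermat.Agent.S48.T24.Cards
import Fermat.Agent.S48.T24.KDefs

set_option autoImplicit false

/-!
# T18 = the twin of S18 for the groups `Gam N` : the core claim `CC`

`IntA`, `SmallA`, `Line`, `lineOf`, `xK` … are those of S18.
-/

noncomputable section

namespace Fermat.Agent.T24.T18

open Fermat.Agent.S18 Fermat.Agent.S24

open Polynomial IntermediateField ModularCurve AlgebraicCurve

/-- **Core claim** (Gauss form): `a ≡ b ≢ 0 mod 𝔪_A`, `m ∣ div (a/b)`  ⟹  `a/b` is an `m`-th power. -/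
def CCStatement (N : ℕ) [NeZero N] [Cond N] (ℓ m : ℕ) : Prop :=
  ∀ A : ValuationSubring Kb, A.LiesOverPrime ℓ → ∀ a b : FN N,
    IntA A a.1 → IntA A b.1 → ¬ SmallA A b.1 → SmallA A (a.1 - b.1) →
    (∀ v : Place Kb (FN N), (m : ℤ) ∣ v.ord (a / b)) → ∃ w : FN N, w ^ m = a / b

end Fermat.Agent.T24.T18
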