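import Fermat.Agent.S18.AT.Normal
import Fermat.Agent.S48.T18.VSide
import Fermat.Agent.S48.T18.HSide
import Fermat.Agent.S48.T18.B.Fin
import Fermat.Agent.S48.T18.B.Irr
import Fermat.Agent.S48.T18.B.Units

set_option autoImplicit false
set_option linter.unusedSectionVars false

/-!
# T18 : the trivial context, `IsTameP1` (twin of the second half of S34/V2/Tame.lean)

`Ctx.isTameP1` takes the vertical input (`DistinctRed`) as a hypothesis: it is chapter V1.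
-/

noncomputable section

namespace Fermat.Agent.T24.T18

open Fermat.Agent.S18 Fermat.Agent.S24

open ModularCurve Polynomial IntermediateField AlgebraicCurve Fermat.Agent.S18.V

instance instDVRCtx {N : ℕ} [NeZero N] [Cond N] {ℓ p : ℕ} {A : ValuationSubring Kb} (𝒞 : Ctx N ℓ p A) :
    IsDiscreteValuationRing 𝒞.R := 𝒞.isDVR

theorem tame_intA_one {K : Type} [Field K] [Algebra ℚ K] (ι : K →+* Kb) (A : ValuationSubring Kb) {N : ℕ}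
    [Cond N] : IntA A (coeffMap ι (1 : modularFunctionFieldFullC K N).1) := by
  intro n
  have h1 : ((1 : modularFunctionFieldFullC K N).1 : LaurentSeries K) = 1 := rfl
  rw [h1, map_one, HahnSeries.coeff_one]
  split_ifs
  · exact A.one_mem
  · exact A.zero_mem

theorem tame_not_smallA_one {K : Type} [Field K] [Algebra ℚ K] (ι : K →+* Kb) (A : ValuationSubring Kb)
    {N : ℕ} [Cond N] : ¬ SmallA A (coeffMap ι (1 : modularFunctionFieldFullC K N).1) := by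
  intro h
  have h0 := h 0
  have h1 : ((1 : modularFunctionFieldFullC K N).1 : LaurentSeries K) = 1 := rfl
  rw [h1, map_one, HahnSeries.coeff_one, if_pos rfl] at h0
  exact ((ValuationSubring.mem_nonunits_iff A).1 h0).ne (map_one _)

/-- the context with `a = b = u = 1`. -/
def trivCtx (N : ℕ) [NeZero N] [Cond N] (ℓ p : ℕ) (A : ValuationSubring Kb) (hℓ : ℓ.Prime) (hℓN : ¬ ℓ ∣ N)
    (hA : A.LiesOverPrime ℓ) (hp : p.Prime) (hpℓ : p ≠ ℓ) (K : Type) [Field K] [NumberField K]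
    [IsGalois ℚ K] (ι : K →+* Kb) (ζ : K) (hζ : IsPrimitiveRoot ζ p) (ζN : K)
    (hζN : IsPrimitiveRoot ζN N) : Ctx N ℓ p A where
  hℓ := hℓ
  hℓN := hℓN
  hA := hA
  hp := hp
  hpℓ := hpℓ
  K := K
  ι := ι
  ζ := ζ
  hζ := hζ
  ζN := ζN
  hζN := hζN
  a := 1
  b := 1
  ha := tame_intA_one ι A
  hb := tame_intA_one ι A
  hb' := tame_not_smallA_one ι A
  hab := by
    intro n
    rw [sub_self, HahnSeries.coeff_zero]
    rw [ValuationSubring.mem_nonunits_iff, map_zero]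
    exact zero_lt_one
  hord := by
    intro v
    rw [div_one, map_one, v.ord_one]
    exact dvd_zero _
  u := 1
  hu := by
    rw [one_pow, div_one]
    rfl

/-- the trivial context with the same `K, ι, ζ, ζN`. -/
def Ctx.triv {N : ℕ} [NeZero N] [Cond N] {ℓ p : ℕ} {A : ValuationSubring Kb} (𝒞 : Ctx N ℓ p A) : Ctx N ℓ p A :=
  trivCtx N ℓ p A 𝒞.hℓ 𝒞.hℓN 𝒞.hA 𝒞.hp 𝒞.hpℓ 𝒞.K 𝒞.ι 𝒞.ζ 𝒞.hζ 𝒞.ζN 𝒞.hζN

variable {N : ℕ} [NeZero N] [Cond N] {ℓ p : ℕ} {A : ValuationSubring Kb} (𝒞 : Ctx N ℓ p A)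

theorem Ctx.E0_le_E : 𝒞.E0 ≤ 𝒞.E :=
  IntermediateField.adjoin.mono 𝒞.K _ _
    (Set.union_subset_union_right _ (Set.singleton_subset_iff.2 (Or.inl rfl)))

theorem Ctx.E_le_E0 (hu : 𝒞.u ∈ 𝒞.E0) : 𝒞.E ≤ 𝒞.E0 := by
  refine IntermediateField.adjoin_le_iff.2 ?_
  rintro y (hy | hy | hy)
  · exact IntermediateField.subset_adjoin _ _ (Or.inl hy)
  · exact IntermediateField.subset_adjoin _ _ (Or.inr hy)
  · rw [Set.mem_singleton_iff] at hy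
    rw [hy]
    exact hu

theorem Ctx.isChart (hD : DistinctRed (vdata 𝒞.R 𝒞.K) 𝒞.x (inc 𝒞.K (xK 𝒞.K 𝒞.Λ))) :
    IsChart (vdata 𝒞.R 𝒞.K) 𝒞.x (inc 𝒞.K (xK 𝒞.K 𝒞.Λ)) := by
  haveI : Fact ℓ.Prime := ⟨𝒞.hℓ⟩
  exact ⟨𝒞.x_transcendental, 𝒞.finiteDimensional, 𝒞.vhyp.isGauss_x, hD⟩

theorem Ctx.isTameP1 (hD : DistinctRed (vdata 𝒞.R 𝒞.K) 𝒞.x (inc 𝒞.K (xK 𝒞.K 𝒞.Λ))) :
    IsTameP1 (vdata 𝒞.R 𝒞.K) 𝒞.x (inc 𝒞.K (xK 𝒞.K 𝒞.Λ)) ℂ 𝒞.jK 𝒞.cR N 𝒞.Λ.ec N where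
  chart := Ctx.isChart 𝒞 hD
  hc := 𝒞.isUnit_c
  he0 := 𝒞.isUnit_N
  hec := 𝒞.isUnit_ec
  heinf := 𝒞.isUnit_N
  hirr0 := 𝒞.irr0
  hirrc := 𝒞.irrc
  hirrinf := 𝒞.irrinf
  Hgen := 𝒞.Hgen
  H0 := 𝒞.H0
  Hc := 𝒞.Hc
  Hinf := 𝒞.Hinf

end Fermat.Agent.T24.T18
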